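/-
PROJECT M (S15), block [K] (helper24): THE EISENSTEIN PART AS AN ORDINARY DATUM (the two soft
fields), THE GREENBERG / `N`-RELAXED SELMER COCYCLES, AND (STAR) FROM A UNIFORM BOUND.

* `G0red N P k S`   : `Gk ∩ ker (reduction at the fixed place over P)`, a submodule of `Gk N P k S`;
* `unram_Gk`        : inertia at `q ∤ N P` acts trivially on `Gk`     [= field `unram` of block [D]'s
                      `OrdDatum P N (Gk N P k S) (G0red N P k S)`, VERBATIM];
* `inertia_Gk`      : inertia at `P` acts trivially on `Gk / G0red`   [= field `inertia`, VERBATIM];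
* `SelGrRel N P k S`: global cocycles, unramified outside `{P, N}`, with values in `G0red` on the
                      inertia group at `P`; `mem_SelGrRel_iff` is the shape `hSrel` of
                      `LocalN/Relax.card_relaxed_le` with `L = {c | ∀ s ∈ Iq P, c s ∈ G0red}`;
* `seamStar_of_uniform_bound` : if `|SelGrRel| * |H⁰(ℚ, Gk)| ≤ C * |Gk|` for ALL `k` with ONE constant
                      `C`, then (STAR) holds (take `k = C + 1`).
-/
import Fermat.Agent.S15.K.Count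

set_option autoImplicit false
set_option synthInstance.maxHeartbeats 400000
set_option linter.unusedSectionVars false

noncomputable section

namespace Fermat.Agent.S15.K.Ord

open AlgebraicCurve ModularCurve CategoryTheory groupCohomology
open Fermat.Agent.S56.Coh Fermat.Agent.CFT.LC Fermat.Agent.CFT.Bridge Fermat.Agent.CFT.LocalBridge
open Fermat.Agent.S15.K.Kummer Fermat.Agent.S15.K.Star Fermat.Agent.S15.K.Count

variable (N : ℕ) [NeZero N] (P k : ℕ) (S : Set ℕ)

/-- The realisation of `Gk` inside `J₀(N)(ℚ̄)`. -/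
def incl : Gk N P k S →+ JZero N where
  toFun g := ((g.1 : ↥(Tm N (P ^ k))) : JZero N)
  map_zero' := rfl
  map_add' _ _ := rfl

lemma incl_apply (g : Gk N P k S) : incl N P k S g = ((g.1 : ↥(Tm N (P ^ k))) : JZero N) := rfl

lemma incl_ρ (σ : GQ) (g : Gk N P k S) :
    incl N P k S ((Gk N P k S).ρ σ g) = σ • incl N P k S g := rfl

lemma incl_injective : Function.Injective (incl N P k S) := fun _ _ h =>
  Subtype.ext (Subtype.ext h)

lemma nsmul_incl (g : Gk N P k S) : P ^ k • incl N P k S g = 0 :=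
  mem_Tm_iff.1 (g.1 : ↥(Tm N (P ^ k))).2

/-- The part of `Gk` in the kernel of the reduction at the fixed place over `P`. -/
def G0red [Fact P.Prime] : Submodule (ZMod (P ^ k)) (Gk N P k S) :=
  AddSubgroup.toZModSubmodule (P ^ k) (((reductionModL (padicPlace P) N).comp (incl N P k S)).ker)

lemma mem_G0red_iff [Fact P.Prime] {g : Gk N P k S} :
    g ∈ G0red N P k S ↔ reductionModL (padicPlace P) N (incl N P k S g) = 0 := Iff.rfl

variable {N P k S}

/-- **Field `unram` of `OrdDatum`**: inertia at `q ∤ N P` acts trivially on `Gk`. -/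
theorem unram_Gk [Fact P.Prime] [Fact N.Prime] (q : ℕ) [Fact q.Prime] (hqN : q ≠ N)
    (hqP : q ≠ P) (s : GQ) (hs : s ∈ Iq q) (x : Gk N P k S) : (Gk N P k S).ρ s x = x := by
  apply incl_injective
  rw [incl_ρ]
  have hqN' : ¬ q ∣ N := fun h =>
    hqN ((Nat.prime_dvd_prime_iff_eq (Fact.out : q.Prime) (Fact.out : N.Prime)).1 h)
  have hqm : ¬ q ∣ P ^ k := fun h =>
    hqP ((Nat.prime_dvd_prime_iff_eq (Fact.out : q.Prime) (Fact.out : P.Prime)).1
      ((Fact.out : q.Prime).dvd_of_dvd_pow h))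
  refine Fermat.Agent.S17.KummerUnram.inertia_fixes_of_nsmul_fixed N (padicPlace q)
    (liesOverPrime_padicPlace q) hqN' hqm hs _ ?_
  rw [nsmul_incl]
  exact smul_zero (A := JZero N) s

/-- **Field `inertia` of `OrdDatum`**: inertia at `P ∤ N` acts trivially modulo the kernel of
reduction. -/
theorem inertia_Gk [Fact P.Prime] (hPN : ¬ P ∣ N) (s : GQ) (hs : s ∈ Iq P) (x : Gk N P k S) :
    (Gk N P k S).ρ s x - x ∈ G0red N P k S := by
  rw [mem_G0red_iff, map_sub, incl_ρ]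
  exact Fermat.Agent.S17.KummerUnram.reductionModL_eq_zero_of_mem_J1 N (padicPlace P)
    (liesOverPrime_padicPlace P) hPN
    (Fermat.Agent.S19.BaseX0.J1_inertia N (padicPlace P) (liesOverPrime_padicPlace P) hPN hs _)

variable (N P k S)

/-- Greenberg's condition at `P`. -/
def GrP [Fact P.Prime] : Submodule (ZMod (P ^ k)) (GQ → Gk N P k S) where
  carrier := {c | ∀ s ∈ Iq P, c s ∈ G0red N P k S}
  add_mem' := fun ha hb s hs => (G0red N P k S).add_mem (ha s hs) (hb s hs)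
  zero_mem' := fun _ _ => (G0red N P k S).zero_mem
  smul_mem' := fun r _ ha s hs => (G0red N P k S).smul_mem r (ha s hs)

/-- The Greenberg-at-`P`, `N`-relaxed Selmer cocycles of `Gk`. -/
def SelGrRel [Fact P.Prime] : Submodule (ZMod (P ^ k)) (GQ → Gk N P k S) where
  carrier := {c | c ∈ Z1g (Gk N P k S) ∧
    (∀ (q : ℕ) [Fact q.Prime], q ≠ P → q ≠ N → IsUnramAt q c) ∧ c ∈ GrP N P k S}
  add_mem' := by
    rintro c c' ⟨hc, hu, hL⟩ ⟨hc', hu', hL'⟩
    exact ⟨Submodule.add_mem _ hc hc', fun q _ h1 h2 => (hu q h1 h2).add (hu' q h1 h2),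
      Submodule.add_mem _ hL hL'⟩
  zero_mem' := ⟨Submodule.zero_mem _, fun q _ _ _ => isUnramAt_zero q, Submodule.zero_mem _⟩
  smul_mem' := by
    rintro r c ⟨hc, hu, hL⟩
    exact ⟨Submodule.smul_mem _ r hc, fun q _ h1 h2 => (hu q h1 h2).smul r,
      Submodule.smul_mem _ r hL⟩

variable {N P k S}

lemma mem_SelGrRel_iff [Fact P.Prime] {c : GQ → Gk N P k S} :
    c ∈ SelGrRel N P k S ↔ c ∈ Z1g (Gk N P k S) ∧
      (∀ (q : ℕ) [Fact q.Prime], q ≠ P → q ≠ N → IsUnramAt q c) ∧ c ∈ GrP N P k S := Iff.rfl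

lemma B1g_le_SelGrRel [Fact P.Prime] (hPN : ¬ P ∣ N) :
    B1g (Gk N P k S) ≤ SelGrRel N P k S := by
  intro c hc
  refine ⟨B1g_le_Z1g hc, fun q _ _ _ => isUnramAt_of_mem_B1g hc, fun s hs => ?_⟩
  obtain ⟨a, _, rfl⟩ := (mem_B₁_iff c).1 hc
  rw [d₀₁_hom_apply]
  exact inertia_Gk hPN s hs a

/-- **(STAR) from a uniform bound**: the conclusion is `SeamStar N S c` of block [A]. -/
theorem seamStar_of_uniform_bound [hP : Fact P.Prime] [hN : Fact N.Prime]
    (hfg : AddGroup.FG ↥(FixedPoints.addSubgroup GQ (JZero N))) (hNP : N ≠ P)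
    (hcomm : ∀ k : ℕ, ∀ r s : Nat.Primes, (r : ℕ) ∉ S → (s : ℕ) ∉ S → ∀ x : JZero N,
      P ^ k • x = 0 → heckeOperatorBar N r (heckeOperatorBar N s x) =
        heckeOperatorBar N s (heckeOperatorBar N r x))
    (C : ℕ)
    (hmain : ∀ k : ℕ, 0 < k → Finite ↥(SelGrRel N P k S) ∧
      Nat.card ↥(SelGrRel N P k S) * Nat.card (FixG (Gk N P k S)) ≤ C * Nat.card (Gk N P k S))
    (c : JZero N) (n : ℕ) (hnc : n • c ≠ 0) (hPc : P • (n • c) = 0)
    (hc : ∀ r : Nat.Primes, (r : ℕ) ∉ S →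
      heckeOperatorBar N r (n • c) = (1 + (r : ℕ)) • (n • c)) :
    ∃ t ∈ Subring.closure {T | ∃ r : Nat.Primes, (r : ℕ) ∉ S ∧ T = heckeOperatorBar N r},
      (∀ z ∈ FixedPoints.addSubgroup GQ (JZero N), ∃ m : ℕ, 0 < m ∧ m • t z = 0) ∧ t c ≠ 0 := by
  have hPN : ¬ P ∣ N := fun h =>
    hNP ((Nat.prime_dvd_prime_iff_eq hP.out hN.out).1 h).symm
  obtain ⟨hfin, hcard⟩ := hmain (C + 1) (Nat.succ_pos C)
  have hCP : C ≤ P ^ C := (Nat.lt_pow_self hP.out.one_lt).le
  have hcard' : Nat.card ↥(SelGrRel N P (C + 1) S) * Nat.card (FixG (Gk N P (C + 1) S)) ≤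
      P ^ C * Nat.card (Gk N P (C + 1) S) :=
    hcard.trans (Nat.mul_le_mul_right _ hCP)
  refine seamStar_of_card_cocycles_le (k := C + 1) hfg hPN (hcomm (C + 1))
    (G0red N P (C + 1) S).toAddSubgroup (fun g hg => hg) (SelGrRel N P (C + 1) S)
    (fun c hc hu hgr => ⟨hc, fun q _ hqP hqN => hu q ?_, hgr⟩)
    (B1g_le_SelGrRel hPN) hcard' (Nat.lt_succ_self C) c n hnc hPc hc
  intro hdvd
  rcases (Nat.Prime.dvd_mul (Fact.out : q.Prime)).1 hdvd with h | h
  · exact hqP ((Nat.prime_dvd_prime_iff_eq (Fact.out : q.Prime) hP.out).1 h)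
  · exact hqN ((Nat.prime_dvd_prime_iff_eq (Fact.out : q.Prime) hN.out).1 h)

end Fermat.Agent.S15.K.Ord
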