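/-
PROJECT M (S15), block [K] (helper24): THE HECKE ACTION ON RATIONAL TORSION, and (STAR) in the shape
consumed by block [A].

* `hecke_fixed_torsion` : a Galois-fixed point `x` of `P`-power order satisfies
  `T_r x = (1 + r) • x` for every prime `r ∤ N`, `r ≠ P` (Eichler-Shimura on torsion, main's
  `S30/Arith/Torsion.frobenius_relation`, at a Frobenius element: it fixes `x`);
* `star_mono` : (STAR) for a set of excluded primes `S'` gives (STAR) for every `S ⊆ S'`;
* `seamStar_final` : (STAR) for `S` from a uniform Selmer bound for `S' = S ∪ {P}`, for a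
  Galois-fixed class `c` of finite order divisible by `P`.  NO Hecke hypothesis on `c` is left: only
  the `P`-part of `c` is used, and `P ∈ S'`.
-/
import Fermat.Agent.S15.K.Ord
import Fermat.Agent.S30.Final.H1
import Fermat.Agent.Lib.FrobeniusExists

set_option autoImplicit false
set_option synthInstance.maxHeartbeats 400000
set_option linter.unusedSectionVars false

noncomputable section

namespace Fermat.Agent.S15.K.Cusp

open AlgebraicCurve ModularCurve
open Fermat.Agent.S56.Coh Fermat.Agent.CFT.LC Fermat.Agent.CFT.Bridge Fermat.Agent.CFT.LocalBridge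
open Fermat.Agent.S15.K.Kummer Fermat.Agent.S15.K.Star Fermat.Agent.S15.K.Count
open Fermat.Agent.S15.K.Ord

variable {N : ℕ} [NeZero N]

/-- **Hecke operators on rational torsion**: `T_r x = (1 + r) • x` for a Galois-fixed point of
`P`-power order, `r ∤ N`, `r ≠ P`. -/
theorem hecke_fixed_torsion {P : ℕ} (hP : P.Prime) (r : Nat.Primes) (hrN : ¬ (r : ℕ) ∣ N)
    (hrP : (r : ℕ) ≠ P) {x : JZero N} (hx : ∃ n : ℕ, P ^ n • x = 0)
    (hfix : ∀ σ : GQ, σ • x = x) : heckeOperatorBar N r x = (1 + (r : ℕ)) • x := by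
  obtain ⟨A, σ, hA, hσ⟩ :=
    Fermat.Agent.Lib.FrobeniusExists.exists_valuationSubring_isFrobeniusAt (r : ℕ) r.2
  have h := Fermat.Agent.S30.Arith.Torsion.frobenius_relation
    (Fermat.Agent.S30.Final.H1.hasReductionAll N P) hP r.2 hrN hrP A hA hσ hx
  rw [hfix σ, hfix σ] at h
  have h2 : heckeOperatorBar N ⟨(r : ℕ), r.2⟩ x = x + (r : ℕ) • x := by
    rw [sub_add_eq_add_sub, sub_eq_zero] at h
    exact h.symm
  have h3 : (⟨(r : ℕ), r.2⟩ : Nat.Primes) = r := Subtype.ext rfl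
  rw [h3] at h2
  rw [h2, add_smul, one_smul]

/-- (STAR) is monotone in the set of excluded primes. -/
theorem star_mono {S S' : Set ℕ} (hSS' : S ⊆ S') {c : JZero N}
    (h : ∃ t ∈ Subring.closure {T | ∃ r : Nat.Primes, (r : ℕ) ∉ S' ∧ T = heckeOperatorBar N r},
      (∀ z ∈ FixedPoints.addSubgroup GQ (JZero N), ∃ m : ℕ, 0 < m ∧ m • t z = 0) ∧ t c ≠ 0) :
    ∃ t ∈ Subring.closure {T | ∃ r : Nat.Primes, (r : ℕ) ∉ S ∧ T = heckeOperatorBar N r},
      (∀ z ∈ FixedPoints.addSubgroup GQ (JZero N), ∃ m : ℕ, 0 < m ∧ m • t z = 0) ∧ t c ≠ 0 := by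
  obtain ⟨t, ht, h1, h2⟩ := h
  refine ⟨t, Subring.closure_mono ?_ ht, h1, h2⟩
  rintro T ⟨r, hr, rfl⟩
  exact ⟨r, fun hrS => hr (hSS' hrS), rfl⟩

/-- **(STAR), final form for block [A].**  `S` contains `N`; the Selmer bound is for the Eisenstein
part cut out by the `T_r`, `r ∉ S ∪ {P}`. -/
theorem seamStar_final {P : ℕ} [hP : Fact P.Prime] [hN : Fact N.Prime]
    (hfg : AddGroup.FG ↥(FixedPoints.addSubgroup GQ (JZero N))) (hNP : N ≠ P)
    (S : Set ℕ) (hNS : N ∈ S)
    (hcomm : ∀ k : ℕ, ∀ r s : Nat.Primes, (r : ℕ) ∉ insert P S → (s : ℕ) ∉ insert P S →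
      ∀ x : JZero N, P ^ k • x = 0 → heckeOperatorBar N r (heckeOperatorBar N s x) =
        heckeOperatorBar N s (heckeOperatorBar N r x))
    (C : ℕ)
    (hmain : ∀ k : ℕ, 0 < k → Finite ↥(SelGrRel N P k (insert P S)) ∧
      Nat.card ↥(SelGrRel N P k (insert P S)) * Nat.card (FixG (Gk N P k (insert P S))) ≤
        C * Nat.card (Gk N P k (insert P S)))
    (c : JZero N) (hcfix : ∀ σ : GQ, σ • c = c) (m : ℕ) (hm : m • c = 0) (hPm : P ∣ m)
    (hmc : (m / P) • c ≠ 0) :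
    ∃ t ∈ Subring.closure {T | ∃ r : Nat.Primes, (r : ℕ) ∉ S ∧ T = heckeOperatorBar N r},
      (∀ z ∈ FixedPoints.addSubgroup GQ (JZero N), ∃ m : ℕ, 0 < m ∧ m • t z = 0) ∧ t c ≠ 0 := by
  refine star_mono (Set.subset_insert P S) ?_
  have hPc : P • ((m / P) • c) = 0 := by
    rw [smul_smul, Nat.mul_div_cancel' hPm, hm]
  refine seamStar_of_uniform_bound hfg hNP hcomm C hmain c (m / P) hmc hPc fun r hr => ?_
  have hrP : (r : ℕ) ≠ P := fun h => hr (h ▸ Set.mem_insert P S)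
  have hrN : ¬ (r : ℕ) ∣ N := fun h =>
    hr (Set.mem_insert_of_mem P
      (((Nat.prime_dvd_prime_iff_eq r.2 hN.out).1 h) ▸ hNS))
  refine hecke_fixed_torsion hP.out r hrN hrP ⟨1, by rw [pow_one]; exact hPc⟩ fun σ => ?_
  have h1 : σ • ((m / P) • c) = (m / P) • (σ • c) :=
    map_nsmul (DistribSMul.toAddMonoidHom (JZero N) σ) (m / P) c
  rw [h1, hcfix σ]

end Fermat.Agent.S15.K.Cusp
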