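/-
PROJECT M (S15), block [K] (helper24): the PURE ALGEBRA of the passage
"a bounded Selmer group at ONE level gives a Hecke polynomial killing the free part".

* `pow_nsmul_eq_zero_of_card_le` : in a finite abelian group killed by `P ^ k` whose order is at most
  `P ^ c`, everything is killed by `P ^ c`;
* `exists_poly_of_image_le` : `M` a finitely generated abelian group, `e` an endomorphism with
  `P ^ c • e M ⊆ P ^ k • M` for ONE pair `c < k`.  Then the characteristic polynomial `f` of `e` on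
  `M / torsion` is `X ^ ρ` modulo `P`, and `f(e)` maps `M` into its torsion.  No localisation, no
  completion, no commutativity of operators: only Cayley-Hamilton.
-/
import Mathlib

set_option autoImplicit false

namespace Fermat.Agent.S15.K.Algebra

open Polynomial

/-- In a finite abelian group killed by `P ^ k` and of order at most `P ^ c`, every element is
killed by `P ^ c`. -/
theorem pow_nsmul_eq_zero_of_card_le {Q : Type*} [AddCommGroup Q] [Finite Q] {P k c : ℕ}
    (hP : P.Prime) (hk : ∀ q : Q, P ^ k • q = 0) (hcard : Nat.card Q ≤ P ^ c) (q : Q) :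
    P ^ c • q = 0 := by
  have h1 : addOrderOf q ∣ P ^ k := addOrderOf_dvd_of_nsmul_eq_zero (hk q)
  obtain ⟨j, _, hj⟩ := (Nat.dvd_prime_pow hP).1 h1
  have h2 : addOrderOf q ∣ Nat.card Q := addOrderOf_dvd_natCard q
  have h3 : P ^ j ≤ P ^ c := by
    rw [← hj]
    exact (Nat.le_of_dvd Nat.card_pos h2).trans hcard
  have h4 : j ≤ c := (Nat.pow_le_pow_iff_right hP.one_lt).1 h3
  have h5 : addOrderOf q ∣ P ^ c := by
    rw [hj]
    exact pow_dvd_pow P h4
  exact addOrderOf_dvd_iff_nsmul_eq_zero.1 h5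

section Charpoly

variable {M : Type*} [AddCommGroup M]

/-- The endomorphism induced on the quotient by the torsion submodule. -/
noncomputable def quotEnd (e : Module.End ℤ M) :
    Module.End ℤ (M ⧸ Submodule.torsion ℤ M) :=
  (Submodule.torsion ℤ M).mapQ (Submodule.torsion ℤ M) e (by
    intro x hx
    obtain ⟨a, ha⟩ := (Submodule.mem_torsion_iff x).1 hx
    refine (Submodule.mem_torsion_iff _).2 ⟨a, ?_⟩
    have ha' : (a : ℤ) • x = 0 := ha
    show (a : ℤ) • e x = 0
    rw [← map_smul, ha', map_zero])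

lemma quotEnd_mk (e : Module.End ℤ M) (x : M) :
    quotEnd e ((Submodule.torsion ℤ M).mkQ x) = (Submodule.torsion ℤ M).mkQ (e x) := rfl

/-- Polynomials in semiconjugate endomorphisms are semiconjugate. -/
lemma aeval_semiconj {M' : Type*} [AddCommGroup M'] (φ : M →ₗ[ℤ] M') (e : Module.End ℤ M)
    (e' : Module.End ℤ M') (h : ∀ x, φ (e x) = e' (φ x)) (f : ℤ[X]) (x : M) :
    φ ((aeval e f) x) = (aeval e' f) (φ x) := by
  have hpow : ∀ (n : ℕ) (x : M), φ ((e ^ n) x) = (e' ^ n) (φ x) := by
    intro n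
    induction n with
    | zero => intro x; simp
    | succ n ih =>
      intro x
      rw [pow_succ, pow_succ, Module.End.mul_apply, Module.End.mul_apply, ih, h]
  induction f using Polynomial.induction_on' with
  | add p q hp hq =>
    rw [map_add, map_add, LinearMap.add_apply, LinearMap.add_apply, map_add, hp, hq]
  | monomial n a =>
    rw [aeval_monomial, aeval_monomial, Module.End.mul_apply, Module.End.mul_apply,
      Module.algebraMap_end_apply, Module.algebraMap_end_apply, map_smul, hpow]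

lemma aeval_quotEnd_mk (e : Module.End ℤ M) (f : ℤ[X]) (x : M) :
    (aeval (quotEnd e) f) ((Submodule.torsion ℤ M).mkQ x) =
      (Submodule.torsion ℤ M).mkQ ((aeval e f) x) :=
  (aeval_semiconj (Submodule.torsion ℤ M).mkQ e (quotEnd e) (fun _ => rfl) f x).symm

/-- A polynomial in `e` acts on an eigenvector through its value at the eigenvalue. -/
lemma aeval_apply_of_eigen (e : Module.End ℤ M) (f : ℤ[X]) (u : ℤ) (x : M) (h : e x = u • x) :
    (aeval e f) x = f.eval u • x := by
  have hpow : ∀ n : ℕ, (e ^ n) x = u ^ n • x := by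
    intro n
    induction n with
    | zero => simp
    | succ n ih => rw [pow_succ', Module.End.mul_apply, ih, map_smul, h, smul_smul, pow_succ]
  induction f using Polynomial.induction_on' with
  | add p q hp hq => rw [map_add, LinearMap.add_apply, hp, hq, eval_add, add_smul]
  | monomial n a =>
    rw [aeval_monomial, Module.End.mul_apply, Module.algebraMap_end_apply, hpow, eval_monomial,
      smul_smul]

/-- If `f ≡ X ^ ρ` modulo `P`, `x ≠ 0` is killed by `P` and `e x = u • x` with `P ∤ u`, then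
`f(e) x ≠ 0`. -/
lemma aeval_ne_zero_of_eigen (e : Module.End ℤ M) {P : ℕ} [hP : Fact P.Prime] {ρ : ℕ} {f : ℤ[X]}
    (hf : f.map (Int.castRingHom (ZMod P)) = X ^ ρ) {u : ℤ} (hu : ¬ (P : ℤ) ∣ u) {x : M}
    (hx : x ≠ 0) (hPx : P • x = 0) (h : e x = u • x) : (aeval e f) x ≠ 0 := by
  rw [aeval_apply_of_eigen e f u x h]
  intro h0
  have h1 : ¬ (P : ℤ) ∣ f.eval u := by
    intro hdvd
    have h2 : ((f.eval u : ℤ) : ZMod P) = 0 := (ZMod.intCast_zmod_eq_zero_iff_dvd _ _).2 hdvd
    have h3 : ((f.eval u : ℤ) : ZMod P) = (u : ZMod P) ^ ρ := by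
      have := congrArg (Polynomial.eval (u : ZMod P)) hf
      rw [eval_pow, eval_X] at this
      rw [← this]
      have h4 := Polynomial.eval₂_at_apply (p := f) (Int.castRingHom (ZMod P)) u
      rw [Polynomial.eval_map]
      exact h4.symm
    rw [h3] at h2
    have h5 : (u : ZMod P) = 0 := eq_zero_of_pow_eq_zero h2
    exact hu ((ZMod.intCast_zmod_eq_zero_iff_dvd _ _).1 h5)
  have hcop : IsCoprime (f.eval u) (P : ℤ) :=
    ((Nat.prime_iff_prime_int.1 hP.out).coprime_iff_not_dvd.2 h1).symm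
  obtain ⟨a, b, hab⟩ := hcop
  have h6 : x = (a * f.eval u + b * (P : ℤ)) • x := by rw [hab, one_smul]
  rw [add_smul, mul_smul, mul_smul, h0, smul_zero, natCast_zsmul, hPx, smul_zero, add_zero] at h6
  exact hx h6

/-- **One level suffices.**  If `P ^ c • e M ⊆ P ^ k • M` with `c < k`, then some monic integer
polynomial `f` with `f ≡ X ^ ρ` modulo `P` has `f(e) M ⊆ torsion`. -/
theorem exists_poly_of_image_le [Module.Finite ℤ M] (e : Module.End ℤ M) {P : ℕ}
    [hP : Fact P.Prime] {c k : ℕ} (hck : c < k)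
    (h : ∀ x : M, ∃ z : M, P ^ c • e x = P ^ k • z) :
    ∃ (ρ : ℕ) (f : ℤ[X]), f.Monic ∧ f.map (Int.castRingHom (ZMod P)) = X ^ ρ ∧
      ∀ x : M, ∃ n : ℕ, n ≠ 0 ∧ n • (aeval e f) x = 0 := by
  classical
  set T := Submodule.torsion ℤ M with hT
  set E := quotEnd e with hE
  let b := Module.Free.chooseBasis ℤ (M ⧸ T)
  -- the image of `E` is divisible by `P`
  have hdiv : ∀ y : M ⧸ T, ∃ z : M ⧸ T, E y = (P : ℤ) • z := by
    intro y
    obtain ⟨x, rfl⟩ := T.mkQ_surjective y
    obtain ⟨z, hz⟩ := h x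
    obtain ⟨d, hd⟩ := Nat.exists_eq_add_of_lt hck
    refine ⟨(P : ℤ) ^ d • T.mkQ z, ?_⟩
    have h1 : (P ^ c : ℕ) • E (T.mkQ x) = (P ^ c : ℕ) • ((P : ℤ) • ((P : ℤ) ^ d • T.mkQ z)) := by
      rw [hE, quotEnd_mk, ← map_nsmul, hz, map_nsmul, hd]
      simp only [← natCast_zsmul, smul_smul]
      congr 1
      push_cast
      ring
    have h2 : ((P ^ c : ℕ) : ℤ) ≠ 0 := by
      exact_mod_cast pow_ne_zero c hP.out.ne_zero
    rw [← natCast_zsmul, ← natCast_zsmul] at h1
    exact smul_right_injective (M ⧸ T) h2 h1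
  -- the matrix of `E` vanishes modulo `P`
  have hmat : (LinearMap.toMatrix b b E).map (Int.castRingHom (ZMod P)) = 0 := by
    ext i j
    rw [Matrix.map_apply, Matrix.zero_apply, LinearMap.toMatrix_apply]
    obtain ⟨z, hz⟩ := hdiv (b j)
    rw [hz, map_smul, Finsupp.smul_apply, smul_eq_mul, map_mul]
    simp
  refine ⟨Fintype.card (Module.Free.ChooseBasisIndex ℤ (M ⧸ T)), E.charpoly, E.charpoly_monic, ?_,
    fun x => ?_⟩
  · rw [← LinearMap.charpoly_toMatrix E b, ← Matrix.charpoly_map, hmat, Matrix.charpoly_zero]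
  · have h1 : T.mkQ ((aeval e E.charpoly) x) = 0 := by
      rw [← aeval_quotEnd_mk, ← hE, LinearMap.aeval_self_charpoly, LinearMap.zero_apply]
    have h2 : (aeval e E.charpoly) x ∈ T := (Submodule.Quotient.mk_eq_zero T).1 h1
    obtain ⟨a, ha⟩ := (Submodule.mem_torsion_iff _).1 h2
    refine ⟨(a : ℤ).natAbs, Int.natAbs_ne_zero.2 (nonZeroDivisors.coe_ne_zero a), ?_⟩
    have h3 : (a : ℤ) • (aeval e E.charpoly) x = 0 := ha
    rcases Int.natAbs_eq (a : ℤ) with h4 | h4
    · rw [h4, natCast_zsmul] at h3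
      exact h3
    · rw [h4, neg_smul, natCast_zsmul, neg_eq_zero] at h3
      exact h3

end Charpoly

end Fermat.Agent.S15.K.Algebra
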