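/-
PROJECT M (S15), block [K] (helper24): the KUMMER MAP of `J₀(N)` on main's cocycle model
(`S56/Coh/Defs`: `Z1g`, `B1g`, `IsUnramAt`, `Iq`).

`Tm N m` is the `m`-torsion of `J₀(N)(ℚ̄)` (the Prelude's `Pic0.torsion`), `Am N m` the Prelude's Galois
representation on it, as an object of `Rep (ZMod m) GQ`.

A `ProjDatum N m G` is a target module `G : Rep (ZMod m) GQ` with Galois-equivariant additive maps
`π : J[m] → G`, `ι : G → J` and `e : J → J` such that `ι ∘ π = e` on `J[m]`.  Think of `e` as a word in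
the Hecke operators, `G = e J[m]` (for instance the Eisenstein part of `J[P ^ k]`), `π = e`,
`ι` = the inclusion; the plain Kummer sequence is `G = Am N m`, `π = id`, `ι` = inclusion, `e = id`.

For a rational point `x` and a division point `y` (`m • y = x`) the function
`kcoc D y σ = π (σ • y - y)` is
* `kcoc_mem_Z1g`   : a locally constant cocycle;
* `kcoc_isUnramAt` : unramified at every `q ∤ m N` (inertia fixes division points: `S17/KummerUnram`,
                     i.e. `S19/BaseX0.J1_inertia` + S18);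
* `kcoc_reduction` : for `ℓ ∤ N` (ALSO `ℓ ∣ m`) and `σ` in the inertia group at a place `A` over `ℓ`,
                     `ι (kcoc D y σ)` lies in the kernel of the reduction at `A`: GREENBERG'S condition;
* `exists_fixed_of_mem_B1g` : if `r • kcoc D y` is a coboundary then `r • e x ∈ m • J(ℚ)`.
-/
import Fermat.Agent.S56.Coh.Lemmas
import Fermat.Agent.S17.WeakMW
import Fermat.Agent.S17.Div.Final
import Fermat.Agent.S15.K.Algebra

set_option autoImplicit false
set_option synthInstance.maxHeartbeats 400000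
set_option linter.unusedSectionVars false

noncomputable section

namespace Fermat.Agent.S15.K.Kummer

open AlgebraicCurve ModularCurve
open Fermat.Agent.S56.Coh Fermat.Agent.CFT.LC Fermat.Agent.CFT.Bridge Fermat.Agent.CFT.LocalBridge

/-- The `m`-torsion of `J₀(N)(ℚ̄)`. -/
abbrev Tm (N m : ℕ) : AddSubgroup (JZero N) :=
  Pic0.torsion (AlgebraicClosure ℚ) (modularFunctionFieldBar N) m

/-- The Galois module `J₀(N)[m]` as an object of `Rep (ZMod m) GQ`. -/
abbrev Am (N m : ℕ) : Rep.{0} (ZMod m) GQ := Rep.of (JZero.torsionGaloisRep N m)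

variable {N : ℕ} [NeZero N] {m : ℕ}

lemma mem_Tm_iff {t : JZero N} : t ∈ Tm N m ↔ m • t = 0 := by
  rw [Pic0.mem_torsion, natCast_zsmul]

lemma Am_ρ_coe (σ : GQ) (t : Am N m) :
    (((Am N m).ρ σ t : Tm N m) : JZero N) = σ • ((t : Tm N m) : JZero N) := rfl

/-- A target module for the Kummer map: see the header. -/
structure ProjDatum (N m : ℕ) [NeZero N] (G : Rep.{0} (ZMod m) GQ) where
  /-- the operator on `J₀(N)(ℚ̄)` -/
  e : JZero N →+ JZero N
  e_smul : ∀ (σ : GQ) (y : JZero N), e (σ • y) = σ • e y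
  /-- the projection from the `m`-torsion -/
  π : ↥(Tm N m) →+ G
  π_smul : ∀ (σ : GQ) (t : ↥(Tm N m)), π (JZero.torsionGaloisRep N m σ t) = G.ρ σ (π t)
  /-- the realisation of `G` inside `J₀(N)(ℚ̄)` -/
  ι : G →+ JZero N
  ι_smul : ∀ (σ : GQ) (g : G), ι (G.ρ σ g) = σ • ι g
  ι_π : ∀ t : ↥(Tm N m), ι (π t) = e (t : JZero N)

/-- The plain Kummer datum: `G = J₀(N)[m]`. -/
def ProjDatum.plain (N m : ℕ) [NeZero N] : ProjDatum N m (Am N m) where
  e := AddMonoidHom.id _
  e_smul _ _ := rfl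
  π := AddMonoidHom.id _
  π_smul _ _ := rfl
  ι := (Tm N m).subtype
  ι_smul _ _ := rfl
  ι_π _ := rfl

section Cocycle

variable {G : Rep.{0} (ZMod m) GQ} (D : ProjDatum N m G)
variable (y : JZero N) (hy : ∀ σ : GQ, σ • (m • y) = m • y)

/-- `σ ↦ σ • y - y`, with values in the `m`-torsion. -/
def ktor (σ : GQ) : ↥(Tm N m) :=
  ⟨σ • y - y, mem_Tm_iff.2 (Fermat.Agent.S17.WeakMW.nsmul_smul_sub y hy σ)⟩

@[simp] lemma coe_ktor (σ : GQ) : ((ktor y hy σ : ↥(Tm N m)) : JZero N) = σ • y - y := rfl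

lemma ktor_mul (g h : GQ) :
    ktor y hy (g * h) = JZero.torsionGaloisRep N m g (ktor y hy h) + ktor y hy g := by
  apply Subtype.ext
  rw [AddSubgroup.coe_add, JZero.coe_torsionGaloisRep_apply, coe_ktor, coe_ktor, coe_ktor, mul_smul,
    smul_sub]
  abel

/-- The Kummer cocycle of the division point `y`, pushed to `G`. -/
def kcoc : GQ → G := fun σ => D.π (ktor y hy σ)

lemma kcoc_apply (σ : GQ) : kcoc D y hy σ = D.π (ktor y hy σ) := rfl

lemma ι_kcoc (σ : GQ) : D.ι (kcoc D y hy σ) = σ • D.e y - D.e y := by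
  rw [kcoc_apply, D.ι_π, coe_ktor, map_sub, D.e_smul]

end Cocycle

/-! ### Open stabilisers -/

section Level

variable (N m)

/-- A level fixing `y` and the whole `m`-torsion. -/
lemma exists_level_fixing [NeZero m] (y : JZero N) :
    ∃ U ∈ levelsAll.sets, (∀ s ∈ U, s • y = y) ∧ ∀ s ∈ U, ∀ t : JZero N, m • t = 0 → s • t = t := by
  have hfinT := Fermat.Agent.S30.Descent.PhiDictThm.finite_torsion N (NeZero.ne m)
  obtain ⟨E, hEfin, hE⟩ := Fermat.Agent.S30.Arith.Smooth.exists_finite_fixing_of_finite N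
    (s := insert y {t : JZero N | m • t = 0}) (hfinT.insert y)
  have hEfin' : FiniteDimensional ℚ E := hEfin
  obtain ⟨U, hU, hUE⟩ := exists_levelAll_le E
  refine ⟨U, hU, fun s hs => ?_, fun s hs t ht => ?_⟩
  · exact hE s (fun a ha => (IntermediateField.mem_fixingSubgroup_iff E s).1 (hUE hs) a ha) y
      (Set.mem_insert _ _)
  · exact hE s (fun a ha => (IntermediateField.mem_fixingSubgroup_iff E s).1 (hUE hs) a ha) t
      (Set.mem_insert_of_mem _ ht)

end Level

section Main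

variable [NeZero m] {G : Rep.{0} (ZMod m) GQ} (D : ProjDatum N m G)
variable (y : JZero N) (hy : ∀ σ : GQ, σ • (m • y) = m • y)

/-- **(K1)** The Kummer function is a locally constant cocycle. -/
theorem kcoc_mem_Z1g : kcoc D y hy ∈ Z1g G := by
  rw [mem_Z1g_iff]
  refine ⟨fun g h => ?_, ?_⟩
  · rw [kcoc_apply, kcoc_apply, kcoc_apply, ktor_mul, map_add, D.π_smul]
  · obtain ⟨U, hU, hUy, hUt⟩ := exists_level_fixing N m y
    refine ⟨U, hU, fun g s hs => ?_, fun g s hs => ?_⟩
    · rw [kcoc_apply, kcoc_apply]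
      congr 1
      apply Subtype.ext
      rw [coe_ktor, coe_ktor, mul_smul, hUy s hs]
    · rw [kcoc_apply, ← D.π_smul]
      congr 1
      apply Subtype.ext
      rw [JZero.coe_torsionGaloisRep_apply]
      exact hUt s hs _ (mem_Tm_iff.1 (ktor y hy g).2)

/-- **(K2)** The Kummer cocycle vanishes on the inertia group at every place `A` over a prime
`ℓ ∤ m N`. -/
theorem kcoc_eq_zero_of_mem_inertia {ℓ : ℕ} [Fact ℓ.Prime] (hℓN : ¬ ℓ ∣ N) (hℓm : ¬ ℓ ∣ m)
    (A : ValuationSubring (AlgebraicClosure ℚ)) (hA : A.LiesOverPrime ℓ) {σ : GQ}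
    (hσ : σ ∈ A.inertiaSubgroupIn ℚ) : kcoc D y hy σ = 0 := by
  have h1 : σ • y = y :=
    Fermat.Agent.S17.KummerUnram.inertia_fixes_of_nsmul_fixed N A hA hℓN hℓm hσ y (hy σ)
  have h2 : ktor y hy σ = 0 := by
    apply Subtype.ext
    rw [coe_ktor, h1, sub_self]
    rfl
  rw [kcoc_apply, h2, map_zero]

/-- **(K2)** in the form of `Coh/Defs`: unramified at the fixed place over `q ∤ m N`. -/
theorem kcoc_isUnramAt {q : ℕ} [Fact q.Prime] (hqN : ¬ q ∣ N) (hqm : ¬ q ∣ m) :
    IsUnramAt q (kcoc D y hy) :=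
  ⟨0, fun s hs => by
    rw [kcoc_eq_zero_of_mem_inertia D y hy hqN hqm (padicPlace q) (liesOverPrime_padicPlace q) hs,
      map_zero, sub_zero]⟩

/-- **(K2')** GREENBERG'S condition: for `ℓ ∤ N` (also `ℓ ∣ m`), on the inertia group at a place `A`
over `ℓ` the Kummer cocycle takes values in the kernel of the reduction at `A`. -/
theorem kcoc_reduction {ℓ : ℕ} [Fact ℓ.Prime] (hℓN : ¬ ℓ ∣ N)
    (A : ValuationSubring (AlgebraicClosure ℚ)) (hA : A.LiesOverPrime ℓ) {σ : GQ}
    (hσ : σ ∈ A.inertiaSubgroupIn ℚ) : reductionModL A N (D.ι (kcoc D y hy σ)) = 0 := by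
  rw [ι_kcoc]
  exact Fermat.Agent.S17.KummerUnram.reductionModL_eq_zero_of_mem_J1 N A hA hℓN
    (Fermat.Agent.S19.BaseX0.J1_inertia N A hA hℓN hσ (D.e y))

/-- **(K3)** Equivariance: an additive operator `T` commuting with Galois carries Kummer cocycles to
Kummer cocycles. -/
theorem ktor_map (T : JZero N →+ JZero N) (hT : ∀ (σ : GQ) (z : JZero N), T (σ • z) = σ • T z)
    (hTy : ∀ σ : GQ, σ • (m • T y) = m • T y) (σ : GQ) :
    ((ktor (T y) hTy σ : ↥(Tm N m)) : JZero N) = T ((ktor y hy σ : ↥(Tm N m)) : JZero N) := by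
  rw [coe_ktor, coe_ktor, map_sub, hT]

/-- **Injectivity.**  If `r • kcoc D y` is a coboundary then `r • e (m • y)` is `m` times a rational
point. -/
theorem exists_fixed_of_mem_B1g (r : ℕ) (h : (r : ZMod m) • kcoc D y hy ∈ B1g G) :
    ∃ z : JZero N, (∀ σ : GQ, σ • z = z) ∧ r • D.e (m • y) = m • z := by
  obtain ⟨g, _, hg⟩ := (mem_B₁_iff _).1 h
  have hg' : ∀ σ : GQ, (r : ZMod m) • kcoc D y hy σ = G.ρ σ g - g := by
    intro σ
    have := congrFun hg σ
    rw [groupCohomology.d₀₁_hom_apply] at this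
    exact this.symm
  have hι : ∀ σ : GQ, r • (σ • D.e y - D.e y) = σ • D.ι g - D.ι g := by
    intro σ
    rw [← ι_kcoc D y hy σ, ← map_nsmul, ← D.ι_smul, ← map_sub, ← hg' σ, Nat.cast_smul_eq_nsmul]
  have hmg : m • D.ι g = 0 := by
    rw [← map_nsmul, ← Nat.cast_smul_eq_nsmul (ZMod m), ZMod.natCast_self, zero_smul, map_zero]
  refine ⟨r • D.e y - D.ι g, fun σ => ?_, ?_⟩
  · have h1 := hι σ
    rw [nsmul_sub] at h1
    have h2 : σ • r • D.e y = r • σ • D.e y :=
      map_nsmul (DistribSMul.toAddMonoidHom (JZero N) σ) r (D.e y)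
    rw [smul_sub, h2]
    have h4 : r • σ • D.e y - σ • D.ι g - (r • D.e y - D.ι g) =
        (r • σ • D.e y - r • D.e y) - (σ • D.ι g - D.ι g) := by abel
    exact sub_eq_zero.1 (by rw [h4, h1, sub_self])
  · rw [nsmul_sub, hmg, sub_zero, map_nsmul, smul_comm]

end Main

end Fermat.Agent.S15.K.Kummer
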