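/-
PROJECT M (S15), block [K] (helper24): THE EXPORT of the Kummer block.

`exists_fixed_of_card_le` : `P ∤ N`, `D : ProjDatum N (P ^ k) G`, `S` ANY space of cocycles on `G` that
contains every locally constant cocycle which is unramified outside `P N` and, on the inertia group
at the fixed place over `P`, takes values in a subgroup `G0` containing `ι⁻¹ (ker (reduction at P))`
(GREENBERG'S condition; NO condition at the primes dividing `N`).  If `S / B1g` is finite of order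
`≤ P ^ c₀` then `P ^ c₀ • e x ∈ P ^ k • J(ℚ)` for every rational point `x`.

`exists_poly_of_card_le` : if moreover `c₀ < k` and `J(ℚ)` is finitely generated (S17 for `N ≥ 5`
prime), there is a monic integer polynomial `f ≡ X ^ ρ (mod P)` such that `f(e)` maps `J(ℚ)` into its
torsion.  With `aeval_ne_zero_of_eigen` of `K/Algebra`: `f(e) c ≠ 0` for every `c ≠ 0` killed by `P` on
which `e` acts through a scalar prime to `P`.  This is the statement (STAR) of the chief's table with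
`t = f(e)`: ONE level `k` with `|Sel| < P ^ k` suffices, no localisation, no completion, no
commutativity of the Hecke operators on `J(ℚ)`.
-/
import Fermat.Agent.S15.K.Kummer
import Fermat.Agent.S17

set_option autoImplicit false
set_option synthInstance.maxHeartbeats 400000
set_option linter.unusedSectionVars false

noncomputable section

namespace Fermat.Agent.S15.K.Bound

open AlgebraicCurve ModularCurve Polynomial
open Fermat.Agent.S56.Coh Fermat.Agent.CFT.LC Fermat.Agent.CFT.Bridge Fermat.Agent.CFT.LocalBridge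
open Fermat.Agent.S15.K.Kummer Fermat.Agent.S15.K.Algebra

variable {N : ℕ} [NeZero N] {P : ℕ} [hP : Fact P.Prime] {k : ℕ}
variable {G : Rep.{0} (ZMod (P ^ k)) GQ} (D : ProjDatum N (P ^ k) G)

/-- **Export (K-main).** -/
theorem exists_fixed_of_card_le (hPN : ¬ P ∣ N) (G0 : AddSubgroup G)
    (hG0 : ∀ g : G, reductionModL (padicPlace P) N (D.ι g) = 0 → g ∈ G0)
    (S : Submodule (ZMod (P ^ k)) (GQ → G))
    (hS : ∀ c ∈ Z1g G, (∀ (q : ℕ) [Fact q.Prime], ¬ q ∣ P * N → IsUnramAt q c) →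
      (∀ σ ∈ Iq P, c σ ∈ G0) → c ∈ S)
    [Finite (↥S ⧸ (B1g G).comap S.subtype)] {c₀ : ℕ}
    (hcard : Nat.card (↥S ⧸ (B1g G).comap S.subtype) ≤ P ^ c₀)
    (x : JZero N) (hx : ∀ σ : GQ, σ • x = x) :
    ∃ z : JZero N, (∀ σ : GQ, σ • z = z) ∧ P ^ c₀ • D.e x = P ^ k • z := by
  have : NeZero (P ^ k) := ⟨pow_ne_zero k hP.out.ne_zero⟩
  obtain ⟨y, rfl⟩ := Fermat.Agent.S17.Div.exists_nsmul_eq N (P ^ k) (NeZero.ne _) x
  have hcS : kcoc D y hx ∈ S := by
    refine hS _ (kcoc_mem_Z1g D y hx) (fun q _ hq => ?_) (fun σ hσ => ?_)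
    · have hqP : ¬ q ∣ P := fun h => hq (Dvd.dvd.mul_right h N)
      have hqN : ¬ q ∣ N := fun h => hq (Dvd.dvd.mul_left h P)
      exact kcoc_isUnramAt D y hx hqN
        (fun h => hqP ((Fact.out : q.Prime).dvd_of_dvd_pow h))
    · exact hG0 _ (kcoc_reduction D y hx hPN (padicPlace P) (liesOverPrime_padicPlace P) hσ)
  -- the class is killed by `P ^ c₀`
  have hkill : ∀ q : ↥S ⧸ (B1g G).comap S.subtype, P ^ k • q = 0 := by
    intro q
    rw [← Nat.cast_smul_eq_nsmul (ZMod (P ^ k)), ZMod.natCast_self, zero_smul]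
  have h1 := pow_nsmul_eq_zero_of_card_le hP.out hkill hcard
    (Submodule.Quotient.mk (⟨kcoc D y hx, hcS⟩ : ↥S))
  rw [← Submodule.Quotient.mk_smul, Submodule.Quotient.mk_eq_zero, Submodule.mem_comap] at h1
  have h2 : ((P ^ c₀ : ℕ) : ZMod (P ^ k)) • kcoc D y hx ∈ B1g G := by
    rw [Nat.cast_smul_eq_nsmul]
    exact h1
  exact exists_fixed_of_mem_B1g D y hx (P ^ c₀) h2

/-- The rational points of `J₀(N)`. -/
abbrev JQ (N : ℕ) : AddSubgroup (JZero N) := FixedPoints.addSubgroup GQ (JZero N)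

/-- `e` restricted to the rational points. -/
def eQ : Module.End ℤ ↥(JQ N) :=
  (D.e.toIntLinearMap.restrict (p := (JQ N).toIntSubmodule) (q := (JQ N).toIntSubmodule)
    (fun x hx σ => by
      have hx' : σ • x = x := hx σ
      show σ • D.e x = D.e x
      rw [← D.e_smul, hx']))

lemma coe_eQ (x : ↥(JQ N)) : ((eQ D x : ↥(JQ N)) : JZero N) = D.e (x : JZero N) := rfl

/-- **Export (K-poly).** -/
theorem exists_poly_of_card_le (hfg : AddGroup.FG ↥(JQ N)) (hPN : ¬ P ∣ N) (G0 : AddSubgroup G)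
    (hG0 : ∀ g : G, reductionModL (padicPlace P) N (D.ι g) = 0 → g ∈ G0)
    (S : Submodule (ZMod (P ^ k)) (GQ → G))
    (hS : ∀ c ∈ Z1g G, (∀ (q : ℕ) [Fact q.Prime], ¬ q ∣ P * N → IsUnramAt q c) →
      (∀ σ ∈ Iq P, c σ ∈ G0) → c ∈ S)
    [Finite (↥S ⧸ (B1g G).comap S.subtype)] {c₀ : ℕ}
    (hcard : Nat.card (↥S ⧸ (B1g G).comap S.subtype) ≤ P ^ c₀) (hck : c₀ < k) :
    ∃ (ρ : ℕ) (f : ℤ[X]), f.Monic ∧ f.map (Int.castRingHom (ZMod P)) = X ^ ρ ∧
      ∀ x : JZero N, (∀ σ : GQ, σ • x = x) →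
        ∃ n : ℕ, n ≠ 0 ∧ n • (aeval D.e.toIntLinearMap f) x = 0 := by
  have : Module.Finite ℤ ↥(JQ N) := Module.Finite.iff_addGroup_fg.2 hfg
  have h : ∀ x : ↥(JQ N), ∃ z : ↥(JQ N), P ^ c₀ • eQ D x = P ^ k • z := by
    intro x
    obtain ⟨z, hz, hxz⟩ := exists_fixed_of_card_le D hPN G0 hG0 S hS hcard x.1 x.2
    exact ⟨⟨z, hz⟩, Subtype.ext hxz⟩
  obtain ⟨ρ, f, hmonic, hmod, hf⟩ := exists_poly_of_image_le (eQ D) hck h
  refine ⟨ρ, f, hmonic, hmod, fun x hx => ?_⟩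
  obtain ⟨n, hn, hnx⟩ := hf ⟨x, hx⟩
  refine ⟨n, hn, ?_⟩
  have h1 := aeval_semiconj ((JQ N).toIntSubmodule.subtype) (eQ D) D.e.toIntLinearMap
    (fun _ => rfl) f ⟨x, hx⟩
  have h2 := congrArg (fun t : ↥(JQ N) => (t : JZero N)) hnx
  simp only [AddSubgroup.coe_nsmul, ZeroMemClass.coe_zero] at h2
  rw [← h2]
  congr 1
  exact h1.symm

/-- **Export (K-poly) for prime level `N ≥ 5`**: Mordell-Weil (S17 on main) supplies the finite
generation. -/
theorem exists_poly_of_card_le_prime (hN : N.Prime) (hN5 : 5 ≤ N) (hPN : ¬ P ∣ N)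
    (G0 : AddSubgroup G)
    (hG0 : ∀ g : G, reductionModL (padicPlace P) N (D.ι g) = 0 → g ∈ G0)
    (S : Submodule (ZMod (P ^ k)) (GQ → G))
    (hS : ∀ c ∈ Z1g G, (∀ (q : ℕ) [Fact q.Prime], ¬ q ∣ P * N → IsUnramAt q c) →
      (∀ σ ∈ Iq P, c σ ∈ G0) → c ∈ S)
    [Finite (↥S ⧸ (B1g G).comap S.subtype)] {c₀ : ℕ}
    (hcard : Nat.card (↥S ⧸ (B1g G).comap S.subtype) ≤ P ^ c₀) (hck : c₀ < k) :
    ∃ (ρ : ℕ) (f : ℤ[X]), f.Monic ∧ f.map (Int.castRingHom (ZMod P)) = X ^ ρ ∧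
      ∀ x : JZero N, (∀ σ : GQ, σ • x = x) →
        ∃ n : ℕ, n ≠ 0 ∧ n • (aeval D.e.toIntLinearMap f) x = 0 :=
  exists_poly_of_card_le D (Fermat.Agent.S17.result N hN hN5) hPN G0 hG0 S hS hcard hck

end Fermat.Agent.S15.K.Bound
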