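/-
PROJECT M (S15), block [K] (helper24): THE FITTING PROJECTOR as a polynomial in the operators.

`J` an abelian group, `X ≤ J` a FINITE subgroup, `𝒜` a set of endomorphisms of `J` which preserve `X`
and commute pairwise ON `X` (not necessarily on `J`).  `exists_projector` : there is `e` in the
subring generated by `𝒜` (a noncommutative word) such that on `X` the operator `e` is the projector
onto the simultaneous generalised `0`-eigenspace `{x ∈ X | ∀ a ∈ 𝒜, ∃ n, a ^ n x = 0}`, and `e c = c`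
for every `c : J` killed by all `a ∈ 𝒜`.  Mathlib only.
-/
import Mathlib

set_option autoImplicit false

namespace Fermat.Agent.S15.K.Fitting

/-- In a finite monoid every element has an idempotent positive power. -/
theorem exists_pow_idem {M : Type*} [Monoid M] [Finite M] (a : M) :
    ∃ w : ℕ, 0 < w ∧ a ^ w * a ^ w = a ^ w := by
  obtain ⟨i, j, hij, h⟩ := Finite.exists_ne_map_eq_of_infinite (fun n : ℕ => a ^ n)
  replace h : a ^ i = a ^ j := h
  wlog hlt : i < j generalizing i j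
  · exact this j i hij.symm h.symm (lt_of_le_of_ne (not_lt.1 hlt) hij.symm)
  obtain ⟨p, rfl⟩ := Nat.exists_eq_add_of_lt hlt
  -- `a ^ (m + (p + 1)) = a ^ m` for `m ≥ i`
  have h1 : ∀ m, i ≤ m → a ^ (m + (p + 1)) = a ^ m := by
    intro m hm
    obtain ⟨d, rfl⟩ := Nat.exists_eq_add_of_le hm
    rw [show i + d + (p + 1) = d + (i + p + 1) by ring, pow_add, ← h, ← pow_add, add_comm]
  have h2 : ∀ t m, i ≤ m → a ^ (m + t * (p + 1)) = a ^ m := by
    intro t
    induction t with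
    | zero => intro m _; simp
    | succ t ih =>
      intro m hm
      rw [show m + (t + 1) * (p + 1) = (m + t * (p + 1)) + (p + 1) by ring,
        h1 _ (le_trans hm (Nat.le_add_right _ _)), ih m hm]
  refine ⟨(i + 1) * (p + 1), Nat.mul_pos (Nat.succ_pos i) (Nat.succ_pos p), ?_⟩
  rw [← pow_add]
  refine h2 (i + 1) _ ?_
  calc i ≤ i + 1 := Nat.le_succ i
    _ = (i + 1) * 1 := (Nat.mul_one _).symm
    _ ≤ (i + 1) * (p + 1) := Nat.mul_le_mul_left _ (Nat.succ_pos p)

variable {J : Type*} [AddCommGroup J]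

section One

variable (X : AddSubgroup J) [Finite X] (a : Module.End ℤ J) (ha : ∀ x ∈ X, a x ∈ X)

omit [Finite X] in
include ha in
lemma pow_mem (n : ℕ) : ∀ x ∈ X, (a ^ n) x ∈ X := by
  induction n with
  | zero => intro x hx; simpa using hx
  | succ n ih =>
    intro x hx
    rw [pow_succ', Module.End.mul_apply]
    exact ha _ (ih x hx)

omit [Finite X] in
/-- the restriction of `a` to `X` -/
def resEnd : AddMonoid.End X where
  toFun x := ⟨a x.1, ha x.1 x.2⟩
  map_zero' := Subtype.ext (map_zero a)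
  map_add' x y := Subtype.ext (map_add a x.1 y.1)

omit [Finite X] in
lemma coe_resEnd_pow (n : ℕ) (x : X) : ((((resEnd X a ha) ^ n) x : X) : J) = (a ^ n) x.1 := by
  induction n with
  | zero => simp
  | succ n ih =>
    rw [pow_succ', pow_succ', Module.End.mul_apply]
    change a ((((resEnd X a ha) ^ n) x : X) : J) = _
    rw [ih]

include ha in
/-- an idempotent positive power of `a` on `X` -/
lemma exists_pow_idem_on :
    ∃ w : ℕ, 0 < w ∧ ∀ x ∈ X, (a ^ w) ((a ^ w) x) = (a ^ w) x := by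
  have : Finite (AddMonoid.End X) := Finite.of_injective (fun f : AddMonoid.End X => (f : X → X))
    DFunLike.coe_injective
  obtain ⟨w, hw, h⟩ := exists_pow_idem (resEnd X a ha)
  refine ⟨w, hw, fun x hx => ?_⟩
  have h1 : (((resEnd X a ha) ^ w) (((resEnd X a ha) ^ w) ⟨x, hx⟩) : X) =
      ((resEnd X a ha) ^ w) ⟨x, hx⟩ := by
    conv_rhs => rw [← h]
    rfl
  have h2 : ((((resEnd X a ha) ^ w) (((resEnd X a ha) ^ w) ⟨x, hx⟩) : X) : J) =
      (((resEnd X a ha) ^ w) ⟨x, hx⟩ : X) := congrArg (fun y : X => (y : J)) h1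
  rw [coe_resEnd_pow, coe_resEnd_pow] at h2
  exact h2

omit [Finite X] in
/-- the idempotent power kills the generalised kernel -/
lemma pow_idem_kills {w : ℕ} (hw : 0 < w) (hidem : ∀ x ∈ X, (a ^ w) ((a ^ w) x) = (a ^ w) x)
    {x : J} (hx : x ∈ X) {n : ℕ} (hn : (a ^ n) x = 0) : (a ^ w) x = 0 := by
  have h1 : ∀ t : ℕ, (a ^ (w * (t + 1))) x = (a ^ w) x := by
    intro t
    induction t with
    | zero => simp
    | succ t ih =>
      rw [show w * (t + 1 + 1) = w + w * (t + 1) by ring, pow_add, Module.End.mul_apply, ih,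
        hidem x hx]
  have h2 : n ≤ w * (n + 1) := by nlinarith
  obtain ⟨d, hd⟩ := Nat.exists_eq_add_of_le h2
  rw [← h1 n, hd, add_comm, pow_add, Module.End.mul_apply, hn, map_zero]

end One

section Family

variable (X : AddSubgroup J) [Finite X] (𝒜 : Set (Module.End ℤ J))

/-- The operators preserving `X` and commuting on `X` with every member of `𝒜`. -/
def centralOn : Subring (Module.End ℤ J) where
  carrier := {b | (∀ x ∈ X, b x ∈ X) ∧ ∀ a ∈ 𝒜, ∀ x ∈ X, b (a x) = a (b x)}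
  mul_mem' := by
    rintro b b' ⟨hb, hbc⟩ ⟨hb', hbc'⟩
    refine ⟨fun x hx => hb _ (hb' x hx), fun a ha x hx => ?_⟩
    rw [Module.End.mul_apply, Module.End.mul_apply, hbc' a ha x hx, hbc a ha _ (hb' x hx)]
  one_mem' := ⟨fun x hx => hx, fun a _ x _ => rfl⟩
  add_mem' := by
    rintro b b' ⟨hb, hbc⟩ ⟨hb', hbc'⟩
    refine ⟨fun x hx => X.add_mem (hb x hx) (hb' x hx), fun a ha x hx => ?_⟩
    rw [LinearMap.add_apply, LinearMap.add_apply, hbc a ha x hx, hbc' a ha x hx, map_add]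
  zero_mem' := ⟨fun x _ => by simp, fun a _ x _ => by simp⟩
  neg_mem' := by
    rintro b ⟨hb, hbc⟩
    refine ⟨fun x hx => by simpa using X.neg_mem (hb x hx), fun a ha x hx => ?_⟩
    rw [LinearMap.neg_apply, LinearMap.neg_apply, hbc a ha x hx, map_neg]

variable {X 𝒜}

omit [Finite X] in
lemma centralOn_pow_comm {b : Module.End ℤ J} (hb : b ∈ centralOn X 𝒜) {a : Module.End ℤ J}
    (ha : a ∈ 𝒜) (hpres : ∀ x ∈ X, a x ∈ X) (n : ℕ) :
    ∀ x ∈ X, b ((a ^ n) x) = (a ^ n) (b x) := by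
  induction n with
  | zero => intro x _; simp
  | succ n ih =>
    intro x hx
    rw [pow_succ', Module.End.mul_apply, Module.End.mul_apply,
      hb.2 a ha _ (pow_mem X a hpres n x hx), ih x hx]

variable (hpres : ∀ a ∈ 𝒜, ∀ x ∈ X, a x ∈ X)
  (hcomm : ∀ a ∈ 𝒜, ∀ b ∈ 𝒜, ∀ x ∈ X, a (b x) = b (a x))

omit [Finite X] in
include hpres hcomm in
lemma closure_le_centralOn : Subring.closure 𝒜 ≤ centralOn X 𝒜 :=
  Subring.closure_le.2 fun a ha => ⟨hpres a ha, fun b hb x hx => hcomm a ha b hb x hx⟩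

include hpres hcomm in
/-- The projector for a finite list of operators. -/
lemma exists_projector_list (l : List (Module.End ℤ J)) (hl : ∀ a ∈ l, a ∈ 𝒜) :
    ∃ e ∈ Subring.closure 𝒜, (∀ x ∈ X, ∀ a ∈ l, ∃ n, (a ^ n) (e x) = 0) ∧
      (∀ x ∈ X, (∀ a ∈ l, ∃ n, (a ^ n) x = 0) → e x = x) ∧
      (∀ c : J, (∀ a ∈ 𝒜, a c = 0) → e c = c) := by
  induction l with
  | nil => exact ⟨1, Subring.one_mem _, fun _ _ a ha => by simp at ha, fun _ _ _ => rfl,
      fun _ _ => rfl⟩
  | cons a l ih =>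
    have haA : a ∈ 𝒜 := hl a (List.mem_cons_self)
    obtain ⟨e', he', h1, h2, h3⟩ := ih fun b hb => hl b (List.mem_cons_of_mem a hb)
    obtain ⟨w, hw, hidem⟩ := exists_pow_idem_on X a (hpres a haA)
    have hεmem : (1 - a ^ w) ∈ Subring.closure 𝒜 :=
      Subring.sub_mem _ (Subring.one_mem _) (Subring.pow_mem _ (Subring.subset_closure haA) w)
    have hεc := closure_le_centralOn hpres hcomm hεmem
    have he'c := closure_le_centralOn hpres hcomm he'
    refine ⟨(1 - a ^ w) * e', Subring.mul_mem _ hεmem he', fun x hx b hb => ?_, fun x hx hx0 => ?_,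
      fun c hc => ?_⟩
    · rcases List.mem_cons.1 hb with rfl | hb'
      · refine ⟨w, ?_⟩
        rw [Module.End.mul_apply, LinearMap.sub_apply, Module.End.one_apply, map_sub,
          hidem _ (he'c.1 x hx), sub_self]
      · obtain ⟨n, hn⟩ := h1 x hx b hb'
        refine ⟨n, ?_⟩
        have hbA : b ∈ 𝒜 := hl b (List.mem_cons_of_mem _ hb')
        rw [Module.End.mul_apply,
          ← centralOn_pow_comm hεc hbA (hpres b hbA) n _ (he'c.1 x hx), hn, map_zero]
    · have hx1 : e' x = x := h2 x hx fun b hb => hx0 b (List.mem_cons_of_mem _ hb)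
      obtain ⟨n, hn⟩ := hx0 a List.mem_cons_self
      rw [Module.End.mul_apply, hx1, LinearMap.sub_apply, Module.End.one_apply,
        pow_idem_kills X a hw hidem hx hn, sub_zero]
    · rw [Module.End.mul_apply, h3 c hc, LinearMap.sub_apply, Module.End.one_apply]
      obtain ⟨v, rfl⟩ := Nat.exists_eq_succ_of_ne_zero hw.ne'
      rw [pow_succ, Module.End.mul_apply, hc a haA, map_zero, sub_zero]

include hpres hcomm in
/-- **The Fitting projector.** -/
theorem exists_projector :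
    ∃ e ∈ Subring.closure 𝒜, (∀ x ∈ X, e x ∈ X) ∧
      (∀ x ∈ X, ∀ a ∈ 𝒜, ∃ n, (a ^ n) (e x) = 0) ∧
      (∀ x ∈ X, (∀ a ∈ 𝒜, ∃ n, (a ^ n) x = 0) → e x = x) ∧
      (∀ c : J, (∀ a ∈ 𝒜, a c = 0) → e c = c) := by
  classical
  -- for every `x ∈ X` outside the generalised kernel choose a witness
  have hwit : ∀ x : X, ∃ a : Module.End ℤ J, (¬ ∀ a ∈ 𝒜, ∃ n, (a ^ n) x.1 = 0) →
      a ∈ 𝒜 ∧ ¬ ∃ n, (a ^ n) x.1 = 0 := by
    intro x
    by_cases h : ∀ a ∈ 𝒜, ∃ n, (a ^ n) x.1 = 0
    · exact ⟨0, fun h' => absurd h h'⟩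
    · obtain ⟨a, ha⟩ := not_forall.1 h
      obtain ⟨ha1, ha2⟩ := Classical.not_imp.1 ha
      exact ⟨a, fun _ => ⟨ha1, ha2⟩⟩
  choose wit hwit using hwit
  let _ : Fintype X := Fintype.ofFinite X
  let bad : Finset X := Finset.univ.filter fun x => ¬ ∀ a ∈ 𝒜, ∃ n, (a ^ n) x.1 = 0
  let l : List (Module.End ℤ J) := (bad.toList).map wit
  have hl : ∀ a ∈ l, a ∈ 𝒜 := by
    intro a ha
    obtain ⟨x, hx, rfl⟩ := List.mem_map.1 ha
    have hxb : x ∈ bad := Finset.mem_toList.1 hx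
    exact (hwit x (Finset.mem_filter.1 hxb).2).1
  obtain ⟨e, he, h1, h2, h3⟩ := exists_projector_list hpres hcomm l hl
  have hec := closure_le_centralOn hpres hcomm he
  refine ⟨e, he, hec.1, fun x hx a ha => ?_, fun x hx hx0 => h2 x hx fun a ha => hx0 a (hl a ha), h3⟩
  -- `e x` is not bad
  by_contra hcon
  have hbad : (⟨e x, hec.1 x hx⟩ : X) ∈ bad := by
    refine Finset.mem_filter.2 ⟨Finset.mem_univ _, fun hall => hcon (hall a ha)⟩
  have hw := hwit ⟨e x, hec.1 x hx⟩ (Finset.mem_filter.1 hbad).2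
  have hmem : wit ⟨e x, hec.1 x hx⟩ ∈ l :=
    List.mem_map.2 ⟨_, Finset.mem_toList.2 hbad, rfl⟩
  exact hw.2 (h1 x hx _ hmem)

end Family

end Fermat.Agent.S15.K.Fitting
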