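/-
PROJECT M (S15), block [K] (helper24): FROM ONE BOUNDED SELMER GROUP TO (STAR).

`S` a set of excluded primes, `eisOps N S` the Eisenstein operators `a_r = T_r - (1 + r)`, `r ∉ S`, on
`J₀(N)(ℚ̄)`; `eisW N P k S` = the Eisenstein part of `J₀(N)[P ^ k]` = the simultaneous generalised
`0`-eigenspace of the `a_r`; `Gk N P k S` = the same as an object of `Rep (ZMod (P ^ k)) GQ`
(`Rep.subrepresentation` of `Am N (P ^ k)`).

* `exists_eisProjector` : (Fitting) a word `e` in the `a_r` which on `J₀(N)[P ^ k]` is the projector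
  onto the Eisenstein part and fixes every `c` with `T_r c = (1 + r) c`; INPUT: the `T_r`, `r ∉ S`,
  commute on `J₀(N)[P ^ k]` (helper3's (c2), a hypothesis here);
* `projDatum` : the `ProjDatum` of `K/Kummer` with `G = Gk N P k S`;
* `seamStar_of_card_le` : if the Greenberg-at-`P`, `N`-relaxed Selmer group of `Gk N P k S` has order
  `≤ P ^ c₀` with `c₀ < k` for ONE `k`, then (STAR) of block [A] holds for every cuspidal-type class
  `c` (a multiple `n • c` of exact order `P` with `T_r (n • c) = (1 + r) (n • c)`): some `t` in the ring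
  generated by the `T_r`, `r ∉ S`, with `t J(ℚ)` torsion and `t c ≠ 0`.
-/
import Fermat.Agent.S15.K.Bound
import Fermat.Agent.S15.K.Fitting
import Fermat.Agent.S30.Arith.HeckeGalois

set_option autoImplicit false
set_option synthInstance.maxHeartbeats 400000
set_option linter.unusedSectionVars false

noncomputable section

namespace Fermat.Agent.S15.K.Star

open AlgebraicCurve ModularCurve Polynomial
open Fermat.Agent.S56.Coh Fermat.Agent.CFT.LC Fermat.Agent.CFT.Bridge Fermat.Agent.CFT.LocalBridge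
open Fermat.Agent.S15.K.Kummer Fermat.Agent.S15.K.Algebra Fermat.Agent.S15.K.Bound
open Fermat.Agent.S15.K.Fitting

variable (N : ℕ) [NeZero N] (P k : ℕ) (S : Set ℕ)

/-- The Hecke operators `T_r`, `r` prime, `r ∉ S`. -/
def heckeGens : Set (Module.End ℤ (JZero N)) :=
  {T | ∃ r : Nat.Primes, (r : ℕ) ∉ S ∧ T = heckeOperatorBar N r}

/-- The Eisenstein operators `a_r = T_r - (1 + r)`, `r ∉ S`. -/
def eisOps : Set (Module.End ℤ (JZero N)) :=
  {a | ∃ r : Nat.Primes, (r : ℕ) ∉ S ∧ a = heckeOperatorBar N r - ((1 + (r : ℕ) : ℕ) : ℤ) • 1}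

lemma eisOps_apply {a : Module.End ℤ (JZero N)} {r : Nat.Primes}
    (ha : a = heckeOperatorBar N r - ((1 + (r : ℕ) : ℕ) : ℤ) • 1) (x : JZero N) :
    a x = heckeOperatorBar N r x - (1 + (r : ℕ)) • x := by
  rw [ha, LinearMap.sub_apply, LinearMap.smul_apply, Module.End.one_apply, natCast_zsmul]

lemma eisOps_subset_closure : eisOps N S ⊆ Subring.closure (heckeGens N S) := by
  rintro a ⟨r, hr, rfl⟩
  exact Subring.sub_mem _ (Subring.subset_closure ⟨r, hr, rfl⟩)
    (Subring.zsmul_mem _ (Subring.one_mem _) _)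

/-- Every word in the Hecke operators commutes with Galois. -/
lemma closure_smul {T : Module.End ℤ (JZero N)} (hT : T ∈ Subring.closure (heckeGens N S))
    (σ : GQ) (x : JZero N) : T (σ • x) = σ • T x := by
  induction hT using Subring.closure_induction generalizing x with
  | mem T hT =>
    obtain ⟨r, _, rfl⟩ := hT
    exact Fermat.Agent.S30.Arith.HeckeGalois.heckeOperatorBar_smul N r σ x
  | zero => simp
  | one => simp
  | add A B _ _ hA hB => rw [LinearMap.add_apply, LinearMap.add_apply, hA, hB, smul_add]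
  | neg A _ hA => rw [LinearMap.neg_apply, LinearMap.neg_apply, hA, smul_neg]
  | mul A B _ _ hA hB => rw [Module.End.mul_apply, Module.End.mul_apply, hB, hA]

/-- Additive endomorphisms preserve the `m`-torsion. -/
lemma end_mem_Tm (m : ℕ) (T : Module.End ℤ (JZero N)) {x : JZero N} (hx : x ∈ Tm N m) :
    T x ∈ Tm N m := by
  rw [mem_Tm_iff] at hx ⊢
  rw [← map_nsmul, hx, map_zero]

/-- The Eisenstein part of `J₀(N)[P ^ k]`, as a subgroup of the torsion. -/
def eisSub : AddSubgroup ↥(Tm N (P ^ k)) where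
  carrier := {t | ∀ a ∈ eisOps N S, ∃ n : ℕ, (a ^ n) (t : JZero N) = 0}
  zero_mem' := fun a _ => ⟨0, by simp⟩
  add_mem' := by
    intro t t' ht ht' a ha
    obtain ⟨n, hn⟩ := ht a ha
    obtain ⟨n', hn'⟩ := ht' a ha
    refine ⟨n + n', ?_⟩
    have e1 : (a ^ (n + n')) (t : JZero N) = 0 := by
      rw [add_comm, pow_add, Module.End.mul_apply, hn, map_zero]
    have e2 : (a ^ (n + n')) (t' : JZero N) = 0 := by
      rw [pow_add, Module.End.mul_apply, hn', map_zero]
    rw [AddSubgroup.coe_add, map_add, e1, e2, add_zero]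
  neg_mem' := by
    intro t ht a ha
    obtain ⟨n, hn⟩ := ht a ha
    exact ⟨n, by rw [AddSubgroup.coe_neg, map_neg, hn, neg_zero]⟩

/-- The Eisenstein part of `J₀(N)[P ^ k]`, as a submodule of `Am N (P ^ k)`. -/
def eisW : Submodule (ZMod (P ^ k)) (Am N (P ^ k)) :=
  AddSubgroup.toZModSubmodule (P ^ k) (eisSub N P k S)

lemma mem_eisW_iff {t : Am N (P ^ k)} :
    t ∈ eisW N P k S ↔ ∀ a ∈ eisOps N S, ∃ n : ℕ, (a ^ n) ((t : ↥(Tm N (P ^ k))) : JZero N) = 0 :=
  Iff.rfl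

lemma eisW_le_comap (σ : GQ) :
    eisW N P k S ≤ (eisW N P k S).comap ((Am N (P ^ k)).ρ σ) := by
  intro t ht a ha
  obtain ⟨n, hn⟩ := ht a ha
  refine ⟨n, ?_⟩
  have h1 : a ^ n ∈ Subring.closure (heckeGens N S) :=
    Subring.pow_mem _ (eisOps_subset_closure N S ha) n
  change (a ^ n) (σ • ((t : ↥(Tm N (P ^ k))) : JZero N)) = 0
  rw [closure_smul N S h1, hn]
  exact smul_zero (A := JZero N) σ

/-- The Eisenstein part of `J₀(N)[P ^ k]` as a Galois module. -/
abbrev Gk : Rep.{0} (ZMod (P ^ k)) GQ :=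
  Rep.subrepresentation (Am N (P ^ k)) (eisW N P k S) (eisW_le_comap N P k S)

variable {N P k S}

/-- **The Eisenstein projector** (Fitting), as a word in the Hecke operators. -/
theorem exists_eisProjector [NeZero (P ^ k)]
    (hcomm : ∀ r s : Nat.Primes, (r : ℕ) ∉ S → (s : ℕ) ∉ S → ∀ x : JZero N, P ^ k • x = 0 →
      heckeOperatorBar N r (heckeOperatorBar N s x) =
        heckeOperatorBar N s (heckeOperatorBar N r x)) :
    ∃ e ∈ Subring.closure (heckeGens N S), (∀ x ∈ Tm N (P ^ k), e x ∈ Tm N (P ^ k)) ∧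
      (∀ x ∈ Tm N (P ^ k), ∀ a ∈ eisOps N S, ∃ n : ℕ, (a ^ n) (e x) = 0) ∧
      (∀ x ∈ Tm N (P ^ k), (∀ a ∈ eisOps N S, ∃ n : ℕ, (a ^ n) x = 0) → e x = x) ∧
      (∀ c : JZero N, (∀ r : Nat.Primes, (r : ℕ) ∉ S →
        heckeOperatorBar N r c = (1 + (r : ℕ)) • c) → e c = c) := by
  have hfin : Finite ↥(Tm N (P ^ k)) := by
    have h := Fermat.Agent.S30.Descent.PhiDictThm.finite_torsion N (NeZero.ne (P ^ k))
    refine (h.subset ?_).to_subtype
    intro x hx
    exact mem_Tm_iff.1 hx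
  have hpres : ∀ a ∈ eisOps N S, ∀ x ∈ Tm N (P ^ k), a x ∈ Tm N (P ^ k) :=
    fun a _ x hx => end_mem_Tm N _ a hx
  have hcomm' : ∀ a ∈ eisOps N S, ∀ b ∈ eisOps N S, ∀ x ∈ Tm N (P ^ k), a (b x) = b (a x) := by
    rintro a ⟨r, hr, ha⟩ b ⟨s, hs, hb⟩ x hx
    rw [eisOps_apply N ha, eisOps_apply N hb, eisOps_apply N hb, eisOps_apply N ha, map_sub,
      map_sub, map_nsmul, map_nsmul, hcomm r s hr hs x (mem_Tm_iff.1 hx), nsmul_sub, nsmul_sub,
      smul_comm (1 + (r : ℕ)) (1 + (s : ℕ)) x]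
    abel
  obtain ⟨e, he, h1, h2, h3, h4⟩ := exists_projector (X := Tm N (P ^ k)) (𝒜 := eisOps N S)
    hpres hcomm'
  refine ⟨e, Subring.closure_le.2 (eisOps_subset_closure N S) he, h1, h2, h3, fun c hc => ?_⟩
  refine h4 c ?_
  rintro a ⟨r, hr, ha⟩
  rw [eisOps_apply N ha, hc r hr, sub_self]

/-- The `ProjDatum` of an Eisenstein projector. -/
def projDatum (e : Module.End ℤ (JZero N)) (he : e ∈ Subring.closure (heckeGens N S))
    (h1 : ∀ x ∈ Tm N (P ^ k), e x ∈ Tm N (P ^ k))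
    (h2 : ∀ x ∈ Tm N (P ^ k), ∀ a ∈ eisOps N S, ∃ n : ℕ, (a ^ n) (e x) = 0) :
    ProjDatum N (P ^ k) (Gk N P k S) where
  e := e.toAddMonoidHom
  e_smul σ y := closure_smul N S he σ y
  π :=
    { toFun := fun t => ⟨⟨e t.1, h1 t.1 t.2⟩, fun a ha => h2 t.1 t.2 a ha⟩
      map_zero' := by
        apply Subtype.ext
        apply Subtype.ext
        exact map_zero e
      map_add' := fun t t' => by
        apply Subtype.ext
        apply Subtype.ext
        exact map_add e t.1 t'.1 }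
  π_smul σ t := by
    apply Subtype.ext
    apply Subtype.ext
    exact closure_smul N S he σ t.1
  ι :=
    { toFun := fun g => ((g.1 : ↥(Tm N (P ^ k))) : JZero N)
      map_zero' := rfl
      map_add' := fun _ _ => rfl }
  ι_smul _ _ := rfl
  ι_π _ := rfl

lemma projDatum_e_apply (e : Module.End ℤ (JZero N)) (he : e ∈ Subring.closure (heckeGens N S))
    (h1 : ∀ x ∈ Tm N (P ^ k), e x ∈ Tm N (P ^ k))
    (h2 : ∀ x ∈ Tm N (P ^ k), ∀ a ∈ eisOps N S, ∃ n : ℕ, (a ^ n) (e x) = 0) (x : JZero N) :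
    (projDatum e he h1 h2).e x = e x := rfl

lemma projDatum_ι_apply (e : Module.End ℤ (JZero N)) (he : e ∈ Subring.closure (heckeGens N S))
    (h1 : ∀ x ∈ Tm N (P ^ k), e x ∈ Tm N (P ^ k))
    (h2 : ∀ x ∈ Tm N (P ^ k), ∀ a ∈ eisOps N S, ∃ n : ℕ, (a ^ n) (e x) = 0) (g : Gk N P k S) :
    (projDatum e he h1 h2).ι g = ((g.1 : ↥(Tm N (P ^ k))) : JZero N) := rfl

/-- A polynomial in a member of a subring is a member. -/
lemma aeval_mem_subring {R : Type*} [Ring R] (B : Subring R) {e : R} (he : e ∈ B) (f : ℤ[X]) :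
    aeval e f ∈ B := by
  induction f using Polynomial.induction_on' with
  | add p q hp hq => rw [map_add]; exact B.add_mem hp hq
  | monomial n a =>
    rw [aeval_monomial, eq_intCast]
    exact B.mul_mem (intCast_mem B a) (B.pow_mem he n)

/-- **(STAR) from ONE bounded Selmer group.**  The conclusion is `SeamStar N S c` of block [A]
(`S15/A/Frame`), unfolded. -/
theorem seamStar_of_card_le [hP : Fact P.Prime]
    (hfg : AddGroup.FG ↥(FixedPoints.addSubgroup GQ (JZero N))) (hPN : ¬ P ∣ N)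
    (hcomm : ∀ r s : Nat.Primes, (r : ℕ) ∉ S → (s : ℕ) ∉ S → ∀ x : JZero N, P ^ k • x = 0 →
      heckeOperatorBar N r (heckeOperatorBar N s x) =
        heckeOperatorBar N s (heckeOperatorBar N r x))
    (G0 : AddSubgroup (Gk N P k S))
    (hG0 : ∀ g : Gk N P k S,
      reductionModL (padicPlace P) N ((g.1 : ↥(Tm N (P ^ k))) : JZero N) = 0 → g ∈ G0)
    (Sel : Submodule (ZMod (P ^ k)) (GQ → Gk N P k S))
    (hSel : ∀ c ∈ Z1g (Gk N P k S), (∀ (q : ℕ) [Fact q.Prime], ¬ q ∣ P * N → IsUnramAt q c) →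
      (∀ σ ∈ Iq P, c σ ∈ G0) → c ∈ Sel)
    [Finite (↥Sel ⧸ (B1g (Gk N P k S)).comap Sel.subtype)] {c₀ : ℕ}
    (hcard : Nat.card (↥Sel ⧸ (B1g (Gk N P k S)).comap Sel.subtype) ≤ P ^ c₀) (hck : c₀ < k)
    (c : JZero N) (n : ℕ) (hnc : n • c ≠ 0) (hPc : P • (n • c) = 0)
    (hc : ∀ r : Nat.Primes, (r : ℕ) ∉ S →
      heckeOperatorBar N r (n • c) = (1 + (r : ℕ)) • (n • c)) :
    ∃ t ∈ Subring.closure {T | ∃ r : Nat.Primes, (r : ℕ) ∉ S ∧ T = heckeOperatorBar N r},
      (∀ z ∈ FixedPoints.addSubgroup GQ (JZero N), ∃ m : ℕ, 0 < m ∧ m • t z = 0) ∧ t c ≠ 0 := by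
  have : NeZero (P ^ k) := ⟨pow_ne_zero k hP.out.ne_zero⟩
  obtain ⟨e, he, h1, h2, _, h4⟩ := exists_eisProjector (N := N) (P := P) (k := k) (S := S) hcomm
  set D := projDatum e he h1 h2 with hD
  obtain ⟨ρ, f, _, hmod, hf⟩ := exists_poly_of_card_le D hfg hPN G0 hG0 Sel hSel hcard hck
  have hDe : D.e.toIntLinearMap = e := by
    ext x
    rfl
  rw [hDe] at hf
  refine ⟨aeval e f, aeval_mem_subring _ he f, fun z hz => ?_, fun h0 => ?_⟩
  · obtain ⟨m, hm, hmz⟩ := hf z hz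
    exact ⟨m, Nat.pos_of_ne_zero hm, hmz⟩
  · -- `t (n • c) ≠ 0`
    have hec : e (n • c) = (1 : ℤ) • (n • c) := by
      rw [one_smul, h4 (n • c) hc]
    have hne := aeval_ne_zero_of_eigen e hmod (u := 1)
      (by
        intro hdvd
        exact hP.out.one_lt.ne' (Nat.eq_one_of_dvd_one (by exact_mod_cast hdvd)))
      hnc hPc hec
    exact hne (by rw [map_nsmul, h0, smul_zero])

end Fermat.Agent.S15.K.Star
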