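/-
PROJECT M (S15), block [K] (helper24): COCYCLE COUNTS versus CLASS COUNTS, and the cocycle-count form
of `Star.seamStar_of_card_le` (block [D] counts cocycles: `|Sel| / |H^0| = |SelZ| / |A|`).

* `card_B1g_mul_card_inv` : for a finite `A` all of whose vectors are smooth,
  `|B1g A| * |A^{G_ℚ}| = |A|`;
* `card_quot_le_of_card_le` : `|Z| * |A^{G_ℚ}| ≤ C * |A|` and `B1g A ≤ Z` give `|Z / B1g| ≤ C`;
* `isLC₀_Gk` : every vector of `Gk N P k S` is smooth;
* `seamStar_of_card_cocycles_le` : (STAR) from a COCYCLE count.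
-/
import Fermat.Agent.S15.K.Star

set_option autoImplicit false
set_option synthInstance.maxHeartbeats 400000
set_option linter.unusedSectionVars false

noncomputable section

namespace Fermat.Agent.S15.K.Count

open AlgebraicCurve ModularCurve CategoryTheory groupCohomology
open Fermat.Agent.S56.Coh Fermat.Agent.CFT.LC Fermat.Agent.CFT.Bridge Fermat.Agent.CFT.LocalBridge
open Fermat.Agent.S15.K.Kummer Fermat.Agent.S15.K.Star

section Abstract

variable {k : Type} [CommRing k] (A : Rep.{0} k GQ)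

/-- The invariants of `A`. -/
abbrev FixG : Type := {a : A // ∀ g : GQ, A.ρ g a = a}

/-- The coboundary map as an additive map. -/
def dHom : A →+ (GQ → A) where
  toFun a := fun g => A.ρ g a - a
  map_zero' := by funext g; simp
  map_add' a b := by funext g; simp only [map_add, Pi.add_apply]; abel

lemma mem_ker_dHom {a : A} : a ∈ (dHom A).ker ↔ ∀ g : GQ, A.ρ g a = a := by
  rw [AddMonoidHom.mem_ker]
  constructor
  · intro h g
    exact sub_eq_zero.1 (congrFun h g)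
  · intro h
    funext g
    exact sub_eq_zero.2 (h g)

lemma range_dHom_eq (hsm : ∀ a : A, IsLC₀ levelsAll A a) :
    ((dHom A).range : Set (GQ → A)) = (B1g A : Set (GQ → A)) := by
  ext f
  constructor
  · rintro ⟨a, rfl⟩
    exact (mem_B₁_iff _).2 ⟨a, hsm a, by funext g; rw [d₀₁_hom_apply]; rfl⟩
  · intro hf
    obtain ⟨a, _, rfl⟩ := (mem_B₁_iff f).1 hf
    exact ⟨a, by funext g; rw [d₀₁_hom_apply]; rfl⟩

/-- `|B1g A| * |A^{G_ℚ}| = |A|`. -/
theorem card_B1g_mul_card_inv [Finite A] (hsm : ∀ a : A, IsLC₀ levelsAll A a) :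
    Nat.card ↥(B1g A) * Nat.card (FixG A) = Nat.card A := by
  have h1 : Nat.card ↥(B1g A) = Nat.card ↥(dHom A).range :=
    Nat.card_congr (Equiv.setCongr (range_dHom_eq A hsm).symm)
  have h2 : Nat.card (FixG A) = Nat.card ↥(dHom A).ker :=
    Nat.card_congr (Equiv.subtypeEquivRight fun a => (mem_ker_dHom A).symm)
  rw [h1, h2, AddSubgroup.card_eq_card_quotient_mul_card_addSubgroup (dHom A).ker,
    Nat.card_congr (QuotientAddGroup.quotientKerEquivRange (dHom A)).toEquiv]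

/-- From a cocycle count to a class count. -/
theorem card_quot_le_of_card_le [Finite A] (hsm : ∀ a : A, IsLC₀ levelsAll A a)
    (Z : Submodule k (GQ → A)) [Finite ↥Z] (hB : B1g A ≤ Z) {C : ℕ}
    (h : Nat.card ↥Z * Nat.card (FixG A) ≤ C * Nat.card A) :
    Nat.card (↥Z ⧸ (B1g A).comap Z.subtype) ≤ C := by
  have h1 := card_eq_of_B1g_le Z hB
  have h2 := card_B1g_mul_card_inv A hsm
  have hpos : 0 < Nat.card A := Nat.card_pos
  rw [h1, ← h2] at h
  have h3 : Nat.card (↥Z ⧸ (B1g A).comap Z.subtype) * (Nat.card ↥(B1g A) * Nat.card (FixG A)) ≤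
      C * (Nat.card ↥(B1g A) * Nat.card (FixG A)) := by
    calc _ = Nat.card ↥(B1g A) * Nat.card (↥Z ⧸ (B1g A).comap Z.subtype) * Nat.card (FixG A) := by
          ring
      _ ≤ _ := h
  exact Nat.le_of_mul_le_mul_right h3 (by rw [h2]; exact hpos)

end Abstract

variable {N : ℕ} [NeZero N] {P k : ℕ} {S : Set ℕ}

/-- Every vector of the Eisenstein part is smooth. -/
lemma isLC₀_Gk [NeZero (P ^ k)] (g : Gk N P k S) : IsLC₀ levelsAll (Gk N P k S) g := by
  obtain ⟨U, hU, _, hUt⟩ := exists_level_fixing N (P ^ k) (0 : JZero N)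
  refine ⟨U, hU, fun s hs => ?_⟩
  apply Subtype.ext
  apply Subtype.ext
  exact hUt s hs _ (mem_Tm_iff.1 (g.1 : ↥(Tm N (P ^ k))).2)

lemma finite_Gk [NeZero (P ^ k)] : Finite (Gk N P k S) := by
  have h := Fermat.Agent.S30.Descent.PhiDictThm.finite_torsion N (NeZero.ne (P ^ k))
  have hfin : Finite ↥(Tm N (P ^ k)) := by
    refine (h.subset ?_).to_subtype
    intro x hx
    exact mem_Tm_iff.1 hx
  exact Finite.of_injective (fun g : Gk N P k S => (g.1 : ↥(Tm N (P ^ k))))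
    fun _ _ h => Subtype.ext h

/-- **(STAR) from ONE bounded Selmer group, cocycle-count form.** -/
theorem seamStar_of_card_cocycles_le [hP : Fact P.Prime]
    (hfg : AddGroup.FG ↥(FixedPoints.addSubgroup GQ (JZero N))) (hPN : ¬ P ∣ N)
    (hcomm : ∀ r s : Nat.Primes, (r : ℕ) ∉ S → (s : ℕ) ∉ S → ∀ x : JZero N, P ^ k • x = 0 →
      heckeOperatorBar N r (heckeOperatorBar N s x) =
        heckeOperatorBar N s (heckeOperatorBar N r x))
    (G0 : AddSubgroup (Gk N P k S))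
    (hG0 : ∀ g : Gk N P k S,
      reductionModL (padicPlace P) N ((g.1 : ↥(Tm N (P ^ k))) : JZero N) = 0 → g ∈ G0)
    (Sel : Submodule (ZMod (P ^ k)) (GQ → Gk N P k S))
    (hSel : ∀ c ∈ Z1g (Gk N P k S), (∀ (q : ℕ) [Fact q.Prime], ¬ q ∣ P * N → IsUnramAt q c) →
      (∀ σ ∈ Iq P, c σ ∈ G0) → c ∈ Sel)
    [Finite ↥Sel] (hB : B1g (Gk N P k S) ≤ Sel) {c₀ : ℕ}
    (hcard : Nat.card ↥Sel * Nat.card (FixG (Gk N P k S)) ≤ P ^ c₀ * Nat.card (Gk N P k S))
    (hck : c₀ < k)
    (c : JZero N) (n : ℕ) (hnc : n • c ≠ 0) (hPc : P • (n • c) = 0)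
    (hc : ∀ r : Nat.Primes, (r : ℕ) ∉ S →
      heckeOperatorBar N r (n • c) = (1 + (r : ℕ)) • (n • c)) :
    ∃ t ∈ Subring.closure {T | ∃ r : Nat.Primes, (r : ℕ) ∉ S ∧ T = heckeOperatorBar N r},
      (∀ z ∈ FixedPoints.addSubgroup GQ (JZero N), ∃ m : ℕ, 0 < m ∧ m • t z = 0) ∧ t c ≠ 0 := by
  have : NeZero (P ^ k) := ⟨pow_ne_zero k hP.out.ne_zero⟩
  have hfinG : Finite (Gk N P k S) := finite_Gk
  have h1 := card_quot_le_of_card_le (Gk N P k S) isLC₀_Gk Sel hB hcard
  have : Finite (↥Sel ⧸ (B1g (Gk N P k S)).comap Sel.subtype) :=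
    Finite.of_surjective _ (Submodule.mkQ_surjective _)
  exact seamStar_of_card_le hfg hPN hcomm G0 hG0 Sel hSel h1 hck c n hnc hPc hc

end Fermat.Agent.S15.K.Count
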